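import Mathlib
import Fermat.Prelude.Def_FLTPrelim_Modularity
import Fermat.Prelude.Def_CuspForm_IntegralLattice
import Fermat.Prelude.Def_CuspForm_IntegralStructure
import Fermat.Prelude.Def_CuspForm_HeckeAlgebra
import Fermat.Prelude.Def_FormalHecke_Eigensystem
import Fermat.Prelude.Def_ModularForm_EisensteinChiNegThree
import Fermat.Prelude.Thm_CuspForm_intLattice_fg
import Fermat.Prelude.Thm_CuspForm_mem_intLattice_of_mem_heckeAlgebra
import Fermat.Prelude.Thm_ModularFormClass_qCoeff_heckeT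
import Fermat.Prelude.Thm_ModularFormClass_qCoeff_heckeU
import Fermat.Prelude.Thm_CongruenceSubgroup_one_mem_strictPeriods_Gamma0

set_option autoImplicit false

/-! q-coefficient bookkeeping for weight-`k` cusp forms on `Γ₀(N)` and the Hecke operators. -/

namespace Fermat.Agent.Lib.Helper8

open ModularFormClass UpperHalfPlane

local notation "Γ₀(" N ")" => CongruenceSubgroup.Gamma0 N

variable {N : ℕ} {k : ℤ}

theorem h8_hΓ (N : ℕ) :
    (1 : ℝ) ∈ (Subgroup.map (Matrix.SpecialLinearGroup.mapGL ℝ) Γ₀(N)).strictPeriods :=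
  CongruenceSubgroup.one_mem_strictPeriods_Gamma0 N

theorem h8_qCoeff_add (f g : CuspForm Γ₀(N) k) (n : ℕ) :
    qCoeff ⇑(f + g) n = qCoeff ⇑f n + qCoeff ⇑g n :=
  P2MW.S_CuspForm_intLattice_fg.W3WsD.qCoeff_add f g n

theorem h8_qCoeff_smul (c : ℂ) (f : CuspForm Γ₀(N) k) (n : ℕ) :
    qCoeff ⇑(c • f) n = c * qCoeff ⇑f n := by
  have h1 : ⇑(c • f) = c • ⇑f := by
    ext z
    simp
  simp only [qCoeff, h1]
  rw [ModularForm.qExpansion_smul one_pos (h8_hΓ N) c f]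
  simp

theorem h8_qCoeff_zsmul (c : ℤ) (f : CuspForm Γ₀(N) k) (n : ℕ) :
    qCoeff ⇑(c • f) n = c * qCoeff ⇑f n :=
  P2MW.S_CuspForm_intLattice_fg.W3WsD.qCoeff_zsmul c f n

theorem h8_qCoeff_sub (f g : CuspForm Γ₀(N) k) (n : ℕ) :
    qCoeff ⇑(f - g) n = qCoeff ⇑f n - qCoeff ⇑g n := by
  simp only [qCoeff, FunLike.coe_sub]
  rw [ModularForm.qExpansion_sub one_pos (h8_hΓ N) f g, map_sub]

theorem h8_qCoeff_zero_eq (f : CuspForm Γ₀(N) k) : qCoeff ⇑f 0 = 0 :=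
  CuspFormClass.qExpansion_coeff_zero f one_pos (h8_hΓ N)

theorem h8_eq_zero_of_qCoeff (f : CuspForm Γ₀(N) k) (h : ∀ n, qCoeff ⇑f n = 0) : f = 0 := by
  have hq : qExpansion 1 ⇑f = 0 := by
    ext n
    simpa [qCoeff] using h n
  have hper := SlashInvariantFormClass.periodic_comp_ofComplex f (h8_hΓ N)
  have : Fact (IsCusp OnePoint.infty (Subgroup.map (Matrix.SpecialLinearGroup.mapGL ℝ) Γ₀(N))) :=
    ⟨Subgroup.isCusp_of_mem_strictPeriods one_pos (h8_hΓ N)⟩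
  have h0 := (UpperHalfPlane.qExpansion_eq_zero_iff one_pos hper (ModularFormClass.holo f)
    (ModularFormClass.bdd_at_infty f)).mp hq
  exact DFunLike.coe_injective (h0.trans (FunLike.coe_zero (F := CuspForm _ k)).symm)

theorem h8_qCoeff_heckeTLin {p : ℕ} (hp : p.Prime) (hpN : ¬ p ∣ N) (f : CuspForm Γ₀(N) k) (n : ℕ) :
    qCoeff ⇑(CuspForm.heckeTLin k hp hpN f) n =
      qCoeff ⇑f (n * p) + if p ∣ n then (p : ℂ) ^ (k - 1) * qCoeff ⇑f (n / p) else 0 := by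
  rw [CuspForm.coe_heckeTLin_apply, ModularFormClass.qCoeff_heckeT f (h8_hΓ N) hp.ne_zero n]
  rfl

theorem h8_qCoeff_heckeULin [NeZero N] {p : ℕ} (hp : p.Prime) (hpN : p ∣ N)
    (f : CuspForm Γ₀(N) k) (n : ℕ) :
    qCoeff ⇑(CuspForm.heckeULin k hpN f) n = qCoeff ⇑f (n * p) := by
  rw [CuspForm.coe_heckeULin_apply, ModularFormClass.qCoeff_heckeU f (h8_hΓ N) hp.ne_zero n]
  rfl

theorem h8_mem_intLattice_iff (f : CuspForm Γ₀(N) k) :
    f ∈ CuspForm.intLattice N k ↔ ∀ n : ℕ, ∃ m : ℤ, qCoeff f n = (m : ℂ) :=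
  P2MW.S_CuspForm_intLattice_fg.W3WsD.mem_intLattice_iff f

theorem h8_mem_qIntegralSet_iff (f : CuspForm Γ₀(N) 2) :
    f ∈ CuspForm.qIntegralSet N ↔ f ∈ CuspForm.intLattice N 2 := by
  rw [h8_mem_intLattice_iff]
  simp only [CuspForm.qIntegralSet, Set.mem_ofPred_eq, Subring.mem_bot]
  constructor
  · intro h n
    obtain ⟨m, hm⟩ := h n
    exact ⟨m, by rw [← hm]⟩
  · intro h n
    obtain ⟨m, hm⟩ := h n
    exact ⟨m, by rw [hm]⟩

end Fermat.Agent.Lib.Helper8
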