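import Mathlib
import Fermat.Prelude.Def_FormalHecke_Eigensystem

set_option autoImplicit false

/-! Formal consequences of the Hecke relations at all primes: multiplicativity and the
prime-power recursion. -/

namespace Fermat.Agent.Lib.Helper8

open FormalHecke

variable {R : Type*} [CommRing R]

theorem isEigensystem_mul_of_coprime {e a : ℕ → R} (h : IsEigensystem e a) :
    ∀ m n : ℕ, m.Coprime n → a (m * n) = a m * a n := by
  intro m
  induction m using Nat.strong_induction_on with
  | _ m ih =>
    intro n hmn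
    rcases Nat.lt_or_ge m 2 with hm | hm
    · interval_cases m
      · have hn : n = 1 := by simpa using hmn
        subst hn
        simp [h.1]
      · simp [h.1]
    · -- m ≥ 2
      have hm1 : m ≠ 1 := by omega
      set ℓ := m.minFac with hℓdef
      have hℓ : ℓ.Prime := Nat.minFac_prime hm1
      have hℓm : ℓ ∣ m := Nat.minFac_dvd m
      obtain ⟨m', hm'⟩ := hℓm
      have hm'pos : 0 < m' := by
        rcases Nat.eq_zero_or_pos m' with h0 | h0
        · subst h0; omega
        · exact h0
      have hm'lt : m' < m := by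
        rw [hm']
        exact lt_mul_of_one_lt_left hm'pos hℓ.one_lt
      have hcop' : m'.Coprime n := Nat.Coprime.coprime_dvd_left ⟨ℓ, by rw [hm', mul_comm]⟩ hmn
      have hcopℓ : ℓ.Coprime n := Nat.Coprime.coprime_dvd_left ⟨m', hm'⟩ hmn
      have hℓn : ¬ ℓ ∣ n := by
        intro hdvd
        have := Nat.eq_one_of_dvd_coprimes hcopℓ (dvd_refl ℓ) hdvd
        exact hℓ.one_lt.ne' this
      have hdvd_iff : ℓ ∣ m' * n ↔ ℓ ∣ m' := by
        constructor
        · intro hd
          exact (hℓ.dvd_mul.mp hd).resolve_right hℓn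
        · intro hd
          exact dvd_mul_of_dvd_left hd n
      have r1 := h.2 ℓ hℓ (m' * n)
      have r2 := h.2 ℓ hℓ m'
      have ih1 := ih m' hm'lt n hcop'
      have hmn_eq : m * n = ℓ * (m' * n) := by rw [hm', mul_assoc]
      rw [hmn_eq, hm']
      by_cases hd : ℓ ∣ m'
      · obtain ⟨m'', hm''⟩ := hd
        have hm''lt : m'' < m := by
          have : m'' ≤ m' := by
            rw [hm'']
            exact Nat.le_mul_of_pos_left m'' hℓ.pos
          omega
        have hcop'' : m''.Coprime n :=
          Nat.Coprime.coprime_dvd_left ⟨ℓ, by rw [hm'', mul_comm]⟩ hcop'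
        have ih2 := ih m'' hm''lt n hcop''
        have hdiv1 : m' * n / ℓ = m'' * n := by
          rw [hm'', mul_assoc]
          exact Nat.mul_div_cancel_left _ hℓ.pos
        have hdiv2 : m' / ℓ = m'' := by
          rw [hm'']
          exact Nat.mul_div_cancel_left _ hℓ.pos
        have hd1 : ℓ ∣ m' * n := hdvd_iff.mpr ⟨m'', hm''⟩
        have hd2 : ℓ ∣ m' := ⟨m'', hm''⟩
        rw [if_pos hd1, hdiv1, ih1, ih2] at r1
        rw [if_pos hd2, hdiv2] at r2
        linear_combination r1 - a n * r2
      · have hd1 : ¬ ℓ ∣ m' * n := fun hh => hd (hdvd_iff.mp hh)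
        rw [if_neg hd1, ih1] at r1
        rw [if_neg hd] at r2
        linear_combination r1 - a n * r2

theorem isEigensystem_prime_pow {e a : ℕ → R} (h : IsEigensystem e a) (p r : ℕ) (hp : p.Prime) :
    a (p ^ (r + 2)) = a p * a (p ^ (r + 1)) - e p * a (p ^ r) := by
  have r1 := h.2 p hp (p ^ (r + 1))
  have hd : p ∣ p ^ (r + 1) := dvd_pow_self p (Nat.succ_ne_zero r)
  have hdiv : p ^ (r + 1) / p = p ^ r := by
    rw [pow_succ]
    exact Nat.mul_div_cancel _ hp.pos
  have hmul : p * p ^ (r + 1) = p ^ (r + 2) := by ring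
  rw [if_pos hd, hdiv, hmul] at r1
  linear_combination r1

theorem isEigensystem_isRecursive {e a : ℕ → R} (h : IsEigensystem e a) : IsRecursive e a :=
  ⟨h.1, isEigensystem_mul_of_coprime h, fun ℓ r hℓ => isEigensystem_prime_pow h ℓ r hℓ⟩

end Fermat.Agent.Lib.Helper8
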