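import Mathlib
import Fermat.Agent.Lib.Helper8.HeckeQCoeff
import Fermat.Agent.Lib.Helper8.FormalHeckeLemmas

set_option autoImplicit false

/-! From a common eigenvector of the full Hecke algebra to a normalised eigenform. -/

namespace Fermat.Agent.Lib.Helper8

open ModularFormClass UpperHalfPlane

local notation "Γ₀(" N ")" => CongruenceSubgroup.Gamma0 N

variable {N : ℕ} [NeZero N]

/-- The weight-two Hecke relations at all primes satisfied by the `q`-coefficients of a common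
eigenvector (unnormalised form). -/
theorem h8_eigen_relation (w : CuspForm Γ₀(N) 2)
    (heig : ∀ T ∈ CuspForm.heckeAlgebra N 2 (∅ : Set ℕ), ∃ μ : ℂ, T w = μ • w)
    (ℓ : ℕ) (hℓ : ℓ.Prime) :
    ∃ μ : ℂ, ∀ m : ℕ, qCoeff ⇑w (m * ℓ) +
      (if ℓ ∣ N then 0 else (ℓ : ℂ)) * (if ℓ ∣ m then qCoeff ⇑w (m / ℓ) else 0) =
        μ * qCoeff ⇑w m := by
  by_cases hN : ℓ ∣ N
  · obtain ⟨μ, hμ⟩ := heig _ (CuspForm.heckeULin_mem_heckeAlgebra (k := 2) hℓ hN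
      (Set.notMem_empty ℓ))
    refine ⟨μ, fun m => ?_⟩
    have h1 := h8_qCoeff_heckeULin (k := 2) hℓ hN w m
    rw [hμ, h8_qCoeff_smul] at h1
    rw [if_pos hN, zero_mul, add_zero, h1]
  · obtain ⟨μ, hμ⟩ := heig _ (CuspForm.heckeTLin_mem_heckeAlgebra (k := 2) hℓ hN
      (Set.notMem_empty ℓ))
    refine ⟨μ, fun m => ?_⟩
    have h1 := h8_qCoeff_heckeTLin (k := 2) hℓ hN w m
    rw [hμ, h8_qCoeff_smul] at h1
    rw [if_neg hN, h1]
    have h21 : ((2 : ℤ) - 1) = 1 := by norm_num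
    rw [h21, zpow_one]
    split_ifs <;> ring

theorem h8_qCoeff_one_ne_zero (w : CuspForm Γ₀(N) 2) (hw : w ≠ 0)
    (heig : ∀ T ∈ CuspForm.heckeAlgebra N 2 (∅ : Set ℕ), ∃ μ : ℂ, T w = μ • w) :
    qCoeff ⇑w 1 ≠ 0 := by
  intro h1
  apply hw
  apply h8_eq_zero_of_qCoeff
  intro n
  induction n using Nat.strong_induction_on with
  | _ n ih =>
    rcases Nat.lt_or_ge n 2 with hn | hn
    · interval_cases n
      · exact h8_qCoeff_zero_eq w
      · exact h1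
    · have hn1 : n ≠ 1 := by omega
      obtain ⟨ℓ, hℓ, m, hm⟩ : ∃ ℓ : ℕ, ℓ.Prime ∧ ∃ m, n = ℓ * m :=
        ⟨n.minFac, Nat.minFac_prime hn1, Nat.minFac_dvd n⟩
      obtain ⟨μ, hμ⟩ := h8_eigen_relation w heig ℓ hℓ
      have hmpos : 0 < m := by
        rcases Nat.eq_zero_or_pos m with h0 | h0
        · subst h0; omega
        · exact h0
      have hmlt : m < n := by
        rw [hm]
        exact lt_mul_of_one_lt_left hmpos hℓ.one_lt
      have hdivlt : m / ℓ < n := lt_of_le_of_lt (Nat.div_le_self _ _) hmlt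
      have hrel := hμ m
      rw [ih m hmlt, ih (m / ℓ) hdivlt] at hrel
      have hnm : n = m * ℓ := by rw [hm, mul_comm]
      rw [hnm]
      simpa using hrel

/-- A normalised common eigenvector of the full Hecke algebra is a normalised eigenform. -/
theorem h8_isEigensystem_of_eigenvector (f : CuspForm Γ₀(N) 2) (hf1 : qCoeff ⇑f 1 = 1)
    (heig : ∀ T ∈ CuspForm.heckeAlgebra N 2 (∅ : Set ℕ), ∃ μ : ℂ, T f = μ • f) :
    FormalHecke.IsEigensystem (fun ℓ => if ℓ ∣ N then 0 else (ℓ : ℂ)) (fun n => qCoeff ⇑f n) := by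
  refine ⟨hf1, fun ℓ hℓ n => ?_⟩
  obtain ⟨μ, hμ⟩ := h8_eigen_relation f heig ℓ hℓ
  have h1 := hμ 1
  have hℓ1 : ¬ ℓ ∣ 1 := fun h => hℓ.one_lt.ne' (Nat.dvd_one.mp h)
  rw [if_neg hℓ1, mul_zero, add_zero, one_mul, hf1, mul_one] at h1
  have hn := hμ n
  rw [← h1] at hn
  simp only
  rw [mul_comm ℓ n]
  exact hn

theorem h8_isNormalizedEigenform_of_eigenvector (f : CuspForm Γ₀(N) 2) (hf1 : qCoeff ⇑f 1 = 1)
    (heig : ∀ T ∈ CuspForm.heckeAlgebra N 2 (∅ : Set ℕ), ∃ μ : ℂ, T f = μ • f) :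
    f.IsNormalizedEigenform := by
  have hsys := h8_isEigensystem_of_eigenvector f hf1 heig
  refine ⟨hf1, isEigensystem_mul_of_coprime hsys, ?_, ?_⟩
  · intro p r hp hpN
    have := isEigensystem_prime_pow hsys p r hp
    simp only [if_neg hpN] at this
    exact this
  · intro p r hp hpN
    have := isEigensystem_prime_pow hsys p r hp
    simp only [if_pos hpN, zero_mul, sub_zero] at this
    exact this

omit [NeZero N] in
/-- The eigenvalue of `T_ℓ` on a normalised eigenvector is its `ℓ`-th coefficient. -/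
theorem h8_qCoeff_prime_eq_eigenvalue (f : CuspForm Γ₀(N) 2) (hf1 : qCoeff ⇑f 1 = 1)
    {ℓ : ℕ} (hℓ : ℓ.Prime) (hN : ¬ ℓ ∣ N) (μ : ℂ)
    (hμ : CuspForm.heckeTLin 2 hℓ hN f = μ • f) : qCoeff ⇑f ℓ = μ := by
  have h1 := h8_qCoeff_heckeTLin (k := 2) hℓ hN f 1
  rw [hμ, h8_qCoeff_smul, hf1, mul_one] at h1
  have hℓ1 : ¬ ℓ ∣ 1 := fun h => hℓ.one_lt.ne' (Nat.dvd_one.mp h)
  rw [if_neg hℓ1, add_zero, one_mul] at h1
  exact h1.symm

/-- Normalising a nonzero common eigenvector. -/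
theorem h8_exists_normalized (w : CuspForm Γ₀(N) 2) (hw : w ≠ 0)
    (χ : CuspForm.heckeAlgebra N 2 (∅ : Set ℕ) → ℂ)
    (heig : ∀ T : CuspForm.heckeAlgebra N 2 (∅ : Set ℕ),
      (T : Module.End ℂ (CuspForm Γ₀(N) 2)) w = χ T • w) :
    ∃ f : CuspForm Γ₀(N) 2, f.IsNormalizedEigenform ∧
      ∀ (ℓ : ℕ) (hℓ : ℓ.Prime) (hN : ¬ ℓ ∣ N),
        qCoeff ⇑f ℓ = χ (CuspForm.heckeAlgebra.T hℓ hN (Set.notMem_empty ℓ)) := by
  have heig' : ∀ T ∈ CuspForm.heckeAlgebra N 2 (∅ : Set ℕ), ∃ μ : ℂ, T w = μ • w :=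
    fun T hT => ⟨χ ⟨T, hT⟩, heig ⟨T, hT⟩⟩
  have hc1 := h8_qCoeff_one_ne_zero w hw heig'
  set c := qCoeff ⇑w 1 with hc
  set f : CuspForm Γ₀(N) 2 := c⁻¹ • w with hf
  have hf1 : qCoeff ⇑f 1 = 1 := by
    rw [hf, h8_qCoeff_smul, ← hc, inv_mul_cancel₀ hc1]
  have hfeig : ∀ T : CuspForm.heckeAlgebra N 2 (∅ : Set ℕ),
      (T : Module.End ℂ (CuspForm Γ₀(N) 2)) f = χ T • f := by
    intro T
    rw [hf, map_smul, heig T, smul_comm]
  have hfeig' : ∀ T ∈ CuspForm.heckeAlgebra N 2 (∅ : Set ℕ), ∃ μ : ℂ, T f = μ • f :=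
    fun T hT => ⟨χ ⟨T, hT⟩, hfeig ⟨T, hT⟩⟩
  refine ⟨f, h8_isNormalizedEigenform_of_eigenvector f hf1 hfeig', fun ℓ hℓ hN => ?_⟩
  exact h8_qCoeff_prime_eq_eigenvalue f hf1 hℓ hN _
    (hfeig (CuspForm.heckeAlgebra.T hℓ hN (Set.notMem_empty ℓ)))

end Fermat.Agent.Lib.Helper8
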