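import Mathlib

set_option autoImplicit false

/-! A commuting family of endomorphisms of a finite-dimensional vector space over an
algebraically closed field has a common eigenvector inside any nonzero invariant subspace. -/

namespace Fermat.Agent.Lib.Helper8

open Module

theorem exists_common_eigenvector {K V : Type*} [Field K] [IsAlgClosed K] [AddCommGroup V]
    [Module K V] [FiniteDimensional K V] (𝒜 : Set (Module.End K V))
    (hcomm : ∀ S ∈ 𝒜, ∀ T ∈ 𝒜, Commute S T) :
    ∀ (W : Submodule K V), W ≠ ⊥ → (∀ T ∈ 𝒜, ∀ w ∈ W, T w ∈ W) →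
      ∃ w ∈ W, w ≠ 0 ∧ ∀ T ∈ 𝒜, ∃ μ : K, T w = μ • w := by
  intro W
  induction hn : Module.finrank K W using Nat.strong_induction_on generalizing W with
  | _ n ih =>
    intro hW hinv
    by_cases hsc : ∀ T ∈ 𝒜, ∃ μ : K, ∀ w ∈ W, T w = μ • w
    · obtain ⟨w, hwW, hw0⟩ := Submodule.exists_mem_ne_zero_of_ne_bot hW
      exact ⟨w, hwW, hw0, fun T hT => let ⟨μ, hμ⟩ := hsc T hT; ⟨μ, hμ w hwW⟩⟩
    · simp only [not_forall, not_exists] at hsc
      obtain ⟨T, hT, hTns⟩ := hsc
      have : Nontrivial W := Submodule.nontrivial_iff_ne_bot.mpr hW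
      have hmaps : Set.MapsTo T W W := fun w hw => hinv T hT w hw
      obtain ⟨μ, hμ⟩ := Module.End.exists_eigenvalue (T.restrict hmaps)
      obtain ⟨w, hw⟩ := hμ.exists_hasEigenvector
      set W' : Submodule K V := W ⊓ LinearMap.ker (T - μ • (1 : Module.End K V)) with hW'
      have hker : ∀ v : V, v ∈ LinearMap.ker (T - μ • (1 : Module.End K V)) ↔ T v = μ • v := by
        intro v
        rw [LinearMap.mem_ker, LinearMap.sub_apply, LinearMap.smul_apply, Module.End.one_apply,
          sub_eq_zero]
      have hw_mem : (w : V) ∈ W' := by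
        refine ⟨w.2, ?_⟩
        have h1 : (T.restrict hmaps) w = μ • w := hw.apply_eq_smul
        have h2 : T (w : V) = μ • (w : V) := by
          have := congrArg Subtype.val h1
          exact this
        exact (hker _).mpr h2
      have hw_ne : (w : V) ≠ 0 := fun h0 => hw.2 (Subtype.ext h0)
      have hW'ne : W' ≠ ⊥ := fun hbot => hw_ne (by simpa [hbot] using hw_mem)
      have hW'le : W' ≤ W := inf_le_left
      have hW'lt : W' < W := by
        refine lt_of_le_of_ne hW'le ?_
        intro heq
        obtain ⟨v, hvW, hv⟩ := hTns μ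
        apply hv
        have : v ∈ W' := heq ▸ hvW
        exact (hker v).mp this.2
      have hfin : Module.finrank K W' < n := hn ▸ Submodule.finrank_lt_finrank_of_lt hW'lt
      have hinv' : ∀ S ∈ 𝒜, ∀ v ∈ W', S v ∈ W' := by
        intro S hS v hv
        refine ⟨hinv S hS v hv.1, ?_⟩
        have hk := (hker v).mp hv.2
        apply (hker (S v)).mpr
        have hc : T (S v) = S (T v) := by
          have := hcomm T hT S hS
          exact congrArg (fun f : Module.End K V => f v) this.eq
        rw [hc, hk, map_smul]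
      obtain ⟨u, huW', hu0, hu⟩ := ih _ hfin W' rfl hW'ne hinv'
      exact ⟨u, hW'le huW', hu0, hu⟩

end Fermat.Agent.Lib.Helper8
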