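import Mathlib
import Fermat.Agent.Lib.Helper8.CommonEigenvector

set_option autoImplicit false

/-! Abstract form of the Deligne--Serre lifting lemma: a commutative ring `A`, finite over `ℤ`,
acting faithfully on a finite-dimensional complex vector space `V`; for every maximal ideal
`𝔪` of `A` there is a common eigenvector in `V` whose eigencharacter `χ : A → ℤ̄` satisfies
`χ⁻¹(𝔪') = 𝔪` for some maximal ideal `𝔪'` of `ℤ̄`. -/

namespace Fermat.Agent.Lib.Helper8

open Submodule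

theorem exists_eigen_character_lifting
    {V : Type*} [AddCommGroup V] [Module ℂ V] [FiniteDimensional ℂ V]
    {A : Type*} [CommRing A] [Module.Finite ℤ A]
    (ι : A →+* Module.End ℂ V) (hι : Function.Injective ι)
    (𝔪 : Ideal A) [h𝔪 : 𝔪.IsMaximal] :
    ∃ (w : V) (χ : A →+* integralClosure ℤ ℂ) (𝔪' : Ideal (integralClosure ℤ ℂ)),
      w ≠ 0 ∧ (∀ a, ι a w = ((χ a : integralClosure ℤ ℂ) : ℂ) • w) ∧ 𝔪'.IsMaximal ∧
        𝔪'.comap χ = 𝔪 := by
  classical
  have hN1 : IsNoetherian ℤ A := isNoetherian_of_isNoetherianRing_of_finite ℤ A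
  have hN2 : IsNoetherianRing A := isNoetherian_of_tower ℤ hN1
  have hInt : Algebra.IsIntegral ℤ A := Algebra.IsIntegral.of_finite ℤ A
  -- a minimal prime below `𝔪`
  obtain ⟨𝔭, h𝔭min, h𝔭le⟩ := Ideal.exists_minimalPrimes_le (bot_le : (⊥ : Ideal A) ≤ 𝔪)
  have h𝔭prime : 𝔭.IsPrime := h𝔭min.1.1
  have hann : Module.annihilator A A = ⊥ := by
    rw [Module.annihilator_eq_bot]
    infer_instance
  have hass : 𝔭 ∈ associatedPrimes A A :=
    Module.associatedPrimes.minimalPrimes_annihilator_subset_associatedPrimes A A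
      (hann.symm ▸ h𝔭min)
  obtain ⟨-, t, ht⟩ := (isAssociatedPrime_iff).mp hass
  have ht_mem : ∀ a : A, a ∈ 𝔭 ↔ a * t = 0 := by
    intro a
    rw [ht, Submodule.mem_colon_singleton, Submodule.mem_bot, smul_eq_mul]
  have ht0 : t ≠ 0 := by
    intro h0
    apply h𝔭prime.ne_top
    rw [Ideal.eq_top_iff_one, ht_mem, h0, mul_zero]
  -- the subspace killed by `𝔭`
  have hιt : ι t ≠ 0 := fun h0 => ht0 (hι (by rw [h0, map_zero]))
  obtain ⟨v, hv⟩ : ∃ v, ι t v ≠ 0 := by
    by_contra hcon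
    push Not at hcon
    exact hιt (LinearMap.ext hcon)
  let W : Submodule ℂ V := ⨅ a ∈ 𝔭, LinearMap.ker (ι a)
  have hWmem : ∀ u : V, u ∈ W ↔ ∀ a ∈ 𝔭, ι a u = 0 := by
    intro u
    simp only [W, Submodule.mem_iInf, LinearMap.mem_ker]
  have hcommι : ∀ a b : A, ∀ u : V, ι a (ι b u) = ι b (ι a u) := by
    intro a b u
    have h1 : ι (a * b) = ι a * ι b := map_mul ι a b
    have h2 : ι (b * a) = ι b * ι a := map_mul ι b a
    have h3 : ι a * ι b = ι b * ι a := by rw [← h1, ← h2, mul_comm]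
    exact congrArg (fun f : Module.End ℂ V => f u) h3
  have hWne : W ≠ ⊥ := by
    intro hbot
    apply hv
    have : ι t v ∈ W := by
      rw [hWmem]
      intro a ha
      have : ι a (ι t v) = ι (a * t) v := by rw [map_mul]; rfl
      rw [this, (ht_mem a).mp ha, map_zero, LinearMap.zero_apply]
    rw [hbot] at this
    exact (Submodule.mem_bot ℂ).mp this
  have hWinv : ∀ T ∈ Set.range ι, ∀ u ∈ W, T u ∈ W := by
    rintro _ ⟨b, rfl⟩ u hu
    rw [hWmem] at hu ⊢
    intro a ha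
    rw [hcommι, hu a ha, map_zero]
  have hcomm : ∀ S ∈ Set.range ι, ∀ T ∈ Set.range ι, Commute S T := by
    rintro _ ⟨a, rfl⟩ _ ⟨b, rfl⟩
    exact LinearMap.ext (hcommι a b)
  obtain ⟨w, hwW, hw0, hw⟩ := exists_common_eigenvector (Set.range ι) hcomm W hWne hWinv
  -- the eigencharacter
  have hex : ∀ a : A, ∃ μ : ℂ, ι a w = μ • w := fun a => hw (ι a) ⟨a, rfl⟩
  choose χ₀ hχ₀ using hex
  have hinj : ∀ μ ν : ℂ, μ • w = ν • w → μ = ν := fun μ ν h => smul_left_injective ℂ hw0 h
  let χ₁ : A →+* ℂ :=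
    { toFun := χ₀
      map_one' := by
        apply hinj
        rw [← hχ₀, map_one, one_smul, Module.End.one_apply]
      map_mul' := by
        intro a b
        apply hinj
        rw [← hχ₀, map_mul, Module.End.mul_apply, hχ₀ b, map_smul, hχ₀ a, smul_smul, mul_comm]
      map_zero' := by
        apply hinj
        rw [← hχ₀, map_zero, zero_smul, LinearMap.zero_apply]
      map_add' := by
        intro a b
        apply hinj
        rw [← hχ₀, map_add, LinearMap.add_apply, hχ₀ a, hχ₀ b, add_smul] }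
  have hχ₁ : ∀ a, ι a w = χ₁ a • w := hχ₀
  -- kernel of the character is `𝔭`
  have hker_ge : 𝔭 ≤ RingHom.ker χ₁ := by
    intro a ha
    rw [RingHom.mem_ker]
    apply hinj
    rw [← hχ₁, zero_smul]
    exact (hWmem w).mp hwW a ha
  have hker_prime : (RingHom.ker χ₁).IsPrime := RingHom.ker_isPrime χ₁
  have hker_comap : (RingHom.ker χ₁).comap (algebraMap ℤ A) = ⊥ := by
    rw [eq_bot_iff]
    intro n hn
    rw [Ideal.mem_comap, RingHom.mem_ker, eq_intCast, map_intCast] at hn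
    rw [Ideal.mem_bot]
    exact_mod_cast hn
  have hker_eq : RingHom.ker χ₁ = 𝔭 := by
    by_contra hne
    have hlt : 𝔭 < RingHom.ker χ₁ := lt_of_le_of_ne hker_ge (Ne.symm hne)
    obtain ⟨x, hxK, hxp⟩ := Set.exists_of_ssubset hlt
    have := Ideal.comap_lt_comap_of_integral_mem_sdiff (R := ℤ) hker_ge ⟨hxK, hxp⟩
      (Algebra.IsIntegral.isIntegral x)
    rw [hker_comap] at this
    exact not_lt_bot this
  -- values are algebraic integers
  have hχint : ∀ a, χ₁ a ∈ integralClosure ℤ ℂ := by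
    intro a
    exact map_isIntegral_int χ₁ (Algebra.IsIntegral.isIntegral a)
  let χ : A →+* integralClosure ℤ ℂ := χ₁.codRestrict (integralClosure ℤ ℂ) hχint
  have hχcoe : ∀ a, ((χ a : integralClosure ℤ ℂ) : ℂ) = χ₁ a := fun a => rfl
  have hkerχ : RingHom.ker χ = 𝔭 := by
    rw [← hker_eq]
    ext a
    rw [RingHom.mem_ker, RingHom.mem_ker, ← hχcoe, ← Subalgebra.coe_eq_zero]
  -- lying over
  letI : Algebra A (integralClosure ℤ ℂ) := χ.toAlgebra
  have hInt' : Algebra.IsIntegral A (integralClosure ℤ ℂ) := by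
    refine ⟨fun z => ?_⟩
    have hz : IsIntegral ℤ z := Algebra.IsIntegral.isIntegral z
    exact hz.tower_top
  have hkerle : RingHom.ker (algebraMap A (integralClosure ℤ ℂ)) ≤ 𝔪 := by
    have : algebraMap A (integralClosure ℤ ℂ) = χ := rfl
    rw [this, hkerχ]
    exact h𝔭le
  obtain ⟨Q, hQmax, hQ⟩ := Ideal.exists_ideal_over_maximal_of_isIntegral 𝔪 hkerle
  exact ⟨w, χ, Q, hw0, fun a => by rw [hχcoe]; exact hχ₁ a, hQmax, hQ⟩

end Fermat.Agent.Lib.Helper8
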