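import Mathlib
import Fermat.Agent.Lib.Helper8.HeckeQCoeff

set_option autoImplicit false

/-! Under `HasIntegralBasis N`, the space `S₂(Γ₀(N))` is finite-dimensional and the Hecke algebra
is a finite `ℤ`-module. -/

namespace Fermat.Agent.Lib.Helper8

open ModularFormClass UpperHalfPlane

local notation "Γ₀(" N ")" => CongruenceSubgroup.Gamma0 N

variable {N : ℕ}

theorem h8_moduleFinite_int_irrel {M : Type*} [AddCommGroup M] (m1 m2 : Module ℤ M)
    (h : @Module.Finite ℤ M _ _ m1) : @Module.Finite ℤ M _ _ m2 := by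
  have : m1 = m2 := Subsingleton.elim _ _
  subst this
  exact h

theorem h8_exists_finset_span [NeZero N] (h : CuspForm.HasIntegralBasis N) :
    ∃ S₀ : Finset (CuspForm Γ₀(N) 2),
      Submodule.span ℤ (S₀ : Set (CuspForm Γ₀(N) 2)) = CuspForm.intLattice N 2 ∧
      Submodule.span ℂ (S₀ : Set (CuspForm Γ₀(N) 2)) = ⊤ := by
  obtain ⟨S₀, hS₀⟩ := CuspForm.intLattice_fg N 2
  refine ⟨S₀, hS₀, ?_⟩
  have hset : CuspForm.qIntegralSet N = (CuspForm.intLattice N 2 : Set (CuspForm Γ₀(N) 2)) :=
    Set.ext fun f => h8_mem_qIntegralSet_iff f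
  have h' : Submodule.span ℂ (CuspForm.qIntegralSet N) = ⊤ := h
  rw [hset, ← hS₀, Submodule.span_span_of_tower] at h'
  exact h'

theorem h8_finiteDimensional [NeZero N] (h : CuspForm.HasIntegralBasis N) :
    FiniteDimensional ℂ (CuspForm Γ₀(N) 2) := by
  obtain ⟨S₀, -, hS₀⟩ := h8_exists_finset_span h
  exact ⟨⟨S₀, hS₀⟩⟩

theorem h8_moduleFinite_heckeAlgebra [NeZero N] (h : CuspForm.HasIntegralBasis N) (S : Set ℕ) :
    Module.Finite ℤ (CuspForm.heckeAlgebra N 2 S) := by
  classical
  obtain ⟨S₀, hS₀, hS₀'⟩ := h8_exists_finset_span h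
  have hmem : ∀ s ∈ S₀, s ∈ CuspForm.intLattice N 2 := fun s hs =>
    hS₀ ▸ Submodule.subset_span hs
  have hfin : Module.Finite ℤ (CuspForm.intLattice N 2) :=
    Module.Finite.iff_fg.mpr (CuspForm.intLattice_fg N 2)
  let ev : CuspForm.heckeAlgebra N 2 S →ₗ[ℤ] (S₀ → CuspForm.intLattice N 2) :=
    { toFun := fun T s => ⟨(T : Module.End ℂ (CuspForm Γ₀(N) 2)) s,
        CuspForm.mem_intLattice_of_mem_heckeAlgebra (by norm_num) T.2 (hmem s s.2)⟩
      map_add' := by
        intro T T'
        funext s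
        apply Subtype.ext
        simp
      map_smul' := by
        intro c T
        funext s
        apply Subtype.ext
        simp }
  have hinj : Function.Injective ev := by
    intro T T' hTT'
    apply Subtype.ext
    apply LinearMap.ext_on hS₀'
    intro s hs
    have := congrFun hTT' ⟨s, hs⟩
    exact congrArg Subtype.val this
  exact Module.Finite.of_injective ev hinj

end Fermat.Agent.Lib.Helper8
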