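import Mathlib
import Fermat.Agent.Lib.Helper8.HeckeQCoeff

set_option autoImplicit false

/-! The mod-3 bookkeeping: the ideal of Hecke operators killing a lattice-realised form modulo `3`. -/

namespace Fermat.Agent.Lib.Helper8

open ModularFormClass UpperHalfPlane EisensteinWeightOne

local notation "Γ₀(" N ")" => CongruenceSubgroup.Gamma0 N

theorem h8_chiNegThree_mod_three (ℓ : ℕ) : (3 : ℤ) ∣ chiNegThree ℓ - (ℓ : ℤ) := by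
  unfold chiNegThree
  split_ifs with h1 h2 <;> omega

theorem h8_bridgeProduct_coeff (a : ℕ → ℤ) (n : ℕ) :
    (3 : ℤ) ∣ (bridgeProduct a).coeff n - a n := by
  let r : PowerSeries ℤ := PowerSeries.mk fun n => if n = 0 then 0 else 2 * sigmaChi n
  have he : e1Chi3In ℤ = 1 + PowerSeries.C (3 : ℤ) * r := by
    ext m
    rw [map_add, PowerSeries.coeff_C_mul]
    simp only [e1Chi3In, e1Chi3, PowerSeries.coeff_map, PowerSeries.coeff_mk,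
      PowerSeries.coeff_one, r, eq_intCast, Int.cast_id]
    split_ifs <;> ring
  have : bridgeProduct a = PowerSeries.mk a + PowerSeries.C (3 : ℤ) * (PowerSeries.mk a * r) := by
    rw [bridgeProduct, he]
    ring
  rw [this, map_add, PowerSeries.coeff_mk, PowerSeries.coeff_C_mul, add_sub_cancel_left]
  exact dvd_mul_right _ _

theorem h8_mod3_key (a af : ℕ → ℤ) (h3 : ∀ n, (3 : ℤ) ∣ af n - a n) (ℓ : ℕ) (x : ℤ)
    (hx : (3 : ℤ) ∣ x - ℓ)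
    (hrel : ∀ n, a (ℓ * n) + x * (if ℓ ∣ n then a (n / ℓ) else 0) = a ℓ * a n) (n : ℕ) :
    (3 : ℤ) ∣ af (n * ℓ) + (if ℓ ∣ n then (ℓ : ℤ) * af (n / ℓ) else 0) - a ℓ * af n := by
  obtain ⟨u₁, hu₁⟩ := h3 (n * ℓ)
  obtain ⟨u₂, hu₂⟩ := h3 (n / ℓ)
  obtain ⟨u₃, hu₃⟩ := h3 n
  obtain ⟨v, hv⟩ := hx
  have hr := hrel n
  rw [mul_comm ℓ n] at hr
  by_cases hd : ℓ ∣ n
  · rw [if_pos hd] at hr ⊢
    refine ⟨u₁ + ℓ * u₂ - a ℓ * u₃ - v * a (n / ℓ), ?_⟩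
    linear_combination hu₁ + (ℓ : ℤ) * hu₂ - a ℓ * hu₃ + hr - a (n / ℓ) * hv
  · rw [if_neg hd] at hr ⊢
    refine ⟨u₁ - a ℓ * u₃, ?_⟩
    linear_combination hu₁ - a ℓ * hu₃ + hr

variable {N : ℕ} [NeZero N]

omit [NeZero N] in
/-- A cusp form all of whose `q`-coefficients are integers divisible by `3` is three times a
form with integral coefficients. -/
theorem h8_exists_third (d : CuspForm Γ₀(N) 2)
    (hd : ∀ n, ∃ m : ℤ, qCoeff ⇑d n = ((3 * m : ℤ) : ℂ)) :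
    ∃ g ∈ CuspForm.intLattice N 2, d = (3 : ℤ) • g := by
  refine ⟨(3⁻¹ : ℂ) • d, ?_, ?_⟩
  · rw [h8_mem_intLattice_iff]
    intro n
    obtain ⟨m, hm⟩ := hd n
    refine ⟨m, ?_⟩
    rw [h8_qCoeff_smul, hm]
    push_cast
    field_simp
  · rw [← Int.cast_smul_eq_zsmul ℂ, smul_smul]
    norm_num

/-- The ideal of Hecke operators sending `f₀` into `3 • (integral lattice)`. -/
def h8_eigIdeal (f₀ : CuspForm Γ₀(N) 2) : Ideal (CuspForm.heckeAlgebra N 2 (∅ : Set ℕ)) where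
  carrier := {T | ∃ g ∈ CuspForm.intLattice N 2,
    (T : Module.End ℂ (CuspForm Γ₀(N) 2)) f₀ = (3 : ℤ) • g}
  add_mem' := by
    rintro T T' ⟨g, hg, hT⟩ ⟨g', hg', hT'⟩
    refine ⟨g + g', add_mem hg hg', ?_⟩
    rw [Subalgebra.coe_add, LinearMap.add_apply, hT, hT', smul_add]
  zero_mem' := ⟨0, zero_mem _, by simp⟩
  smul_mem' := by
    rintro S T ⟨g, hg, hT⟩
    refine ⟨(S : Module.End ℂ (CuspForm Γ₀(N) 2)) g,
      CuspForm.mem_intLattice_of_mem_heckeAlgebra (by norm_num) S.2 hg, ?_⟩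
    rw [smul_eq_mul, Subalgebra.coe_mul, Module.End.mul_apply, hT, map_zsmul]

theorem h8_mem_eigIdeal (f₀ : CuspForm Γ₀(N) 2) (T : CuspForm.heckeAlgebra N 2 (∅ : Set ℕ)) :
    T ∈ h8_eigIdeal f₀ ↔ ∃ g ∈ CuspForm.intLattice N 2,
      (T : Module.End ℂ (CuspForm Γ₀(N) 2)) f₀ = (3 : ℤ) • g := Iff.rfl

theorem h8_three_mem_eigIdeal (f₀ : CuspForm Γ₀(N) 2) (hf₀ : f₀ ∈ CuspForm.intLattice N 2) :
    ((3 : ℕ) : CuspForm.heckeAlgebra N 2 (∅ : Set ℕ)) ∈ h8_eigIdeal f₀ := by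
  rw [h8_mem_eigIdeal]
  refine ⟨f₀, hf₀, ?_⟩
  have h3 : (((3 : ℕ) : CuspForm.heckeAlgebra N 2 (∅ : Set ℕ)) :
      Module.End ℂ (CuspForm Γ₀(N) 2)) = ((3 : ℕ) : Module.End ℂ (CuspForm Γ₀(N) 2)) := rfl
  rw [h3, Module.End.natCast_apply, ← natCast_zsmul]
  rfl

theorem h8_eigIdeal_ne_top (f₀ : CuspForm Γ₀(N) 2) (af : ℕ → ℤ)
    (haf : ∀ n, (af n : ℂ) = qCoeff ⇑f₀ n) (h1 : ¬ (3 : ℤ) ∣ af 1) :
    h8_eigIdeal f₀ ≠ ⊤ := by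
  intro htop
  have h1mem : (1 : CuspForm.heckeAlgebra N 2 (∅ : Set ℕ)) ∈ h8_eigIdeal f₀ := by
    rw [htop]; trivial
  rw [h8_mem_eigIdeal] at h1mem
  obtain ⟨g, hg, hT⟩ := h1mem
  rw [Subalgebra.coe_one, Module.End.one_apply] at hT
  rw [h8_mem_intLattice_iff] at hg
  obtain ⟨m, hm⟩ := hg 1
  apply h1
  refine ⟨m, ?_⟩
  have h2 : qCoeff ⇑f₀ 1 = ((3 : ℤ) : ℂ) * qCoeff ⇑g 1 := by
    rw [hT, h8_qCoeff_zsmul]
  rw [← haf, hm] at h2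
  exact_mod_cast h2

theorem h8_T_sub_mem_eigIdeal (f₀ : CuspForm Γ₀(N) 2)
    (a af : ℕ → ℤ) (haf : ∀ n, (af n : ℂ) = qCoeff ⇑f₀ n) (h3 : ∀ n, (3 : ℤ) ∣ af n - a n)
    {ℓ : ℕ} (hℓ : ℓ.Prime) (hN : ¬ ℓ ∣ N)
    (hrel : ∀ n, a (ℓ * n) + (chiNegThree ℓ : ℤ) * (if ℓ ∣ n then a (n / ℓ) else 0) = a ℓ * a n) :
    CuspForm.heckeAlgebra.T hℓ hN (Set.notMem_empty ℓ) -
      ((a ℓ : ℤ) : CuspForm.heckeAlgebra N 2 (∅ : Set ℕ)) ∈ h8_eigIdeal f₀ := by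
  rw [h8_mem_eigIdeal]
  have hkey := h8_mod3_key a af h3 ℓ (chiNegThree ℓ) (h8_chiNegThree_mod_three ℓ) hrel
  have hd : ∀ n, ∃ m : ℤ,
      qCoeff ⇑(CuspForm.heckeTLin 2 hℓ hN f₀ - (a ℓ : ℤ) • f₀) n = ((3 * m : ℤ) : ℂ) := by
    intro n
    obtain ⟨m, hm⟩ := hkey n
    refine ⟨m, ?_⟩
    rw [← hm, h8_qCoeff_sub, h8_qCoeff_zsmul, h8_qCoeff_heckeTLin, ← haf, ← haf, ← haf]
    have h21 : ((2 : ℤ) - 1) = 1 := by norm_num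
    rw [h21, zpow_one]
    push_cast
    split_ifs <;> ring
  obtain ⟨g, hg, hgd⟩ := h8_exists_third _ hd
  refine ⟨g, hg, ?_⟩
  have hcast : (((a ℓ : ℤ) : CuspForm.heckeAlgebra N 2 (∅ : Set ℕ)) :
      Module.End ℂ (CuspForm Γ₀(N) 2)) = ((a ℓ : ℤ) : Module.End ℂ (CuspForm Γ₀(N) 2)) := rfl
  rw [← hgd, Subalgebra.coe_sub, hcast, LinearMap.sub_apply,
    Module.End.intCast_apply, CuspForm.heckeAlgebra.coe_T]

end Fermat.Agent.Lib.Helper8
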